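import Mathlib
import Fermat.Agent.FF2.G2.Lift

/-!
# MOONSHOT S19, block F8 (MOVE), part 1: fixed lifts of a FINITE set of classes

helper14's `G2.exists_lifts` needs an `H`-fixed lift of EVERY place of the special fibre outside a
finite set, which cannot hold for `H` = (the image of) a finite-index subgroup `Γ_n` of the
decomposition group: an `H`-fixed lift of `Q` forces `Q` itself to be fixed by the residual action,
and over `k = 𝔽̄_ℓ` infinitely many places are not `𝔽_{ℓ^n}`-rational.  What is true, and what
the programme needs, is the finite-support variant: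

* `exists_rep_avoiding` : every class of `Pic⁰` has a representative avoiding a finite set;
* `exists_lifts_of_finite` : for a FINITE set `Vet` of classes of `Pic⁰` of the special fibre and a
  finite set `Bad` of places there is a finite set `Z` of places, disjoint from `Bad`, such that for
  every set `H` of semilinear automorphisms: if every place of `Z` has an `H`-fixed lift, then there
  is a section `c` of `redPic` with `c ub` fixed by `H` for all `ub ∈ Vet`.
-/

set_option autoImplicit false
set_option linter.style.haveILetI false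

namespace Fermat.Agent.FF2.Move

open AlgebraicCurve Module Fermat.Agent.Red Fermat.Agent.FF2.Disc Fermat.Agent.FF2.G2

/-- Every class of `Pic⁰` has a representative of degree zero avoiding a given finite set of
places. -/
theorem exists_rep_avoiding {k Ft : Type*} [Field k] [Field Ft] [Algebra k Ft] [Infinite k]
    (hFt : RiemannPkg k Ft) (Bad : Finset (Place k Ft)) (ub : Pic0 k Ft) :
    ∃ Db : Divisor.degZero (K := k) (F := Ft),
      Pic0.mk Db = ub ∧ ∀ Q ∈ Bad, (Db : Divisor k Ft) Q = 0 := by
  haveI := hFt.principal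
  obtain ⟨D0, rfl⟩ := Pic0.mk_surjective ub
  obtain ⟨D', hprin, hBad⟩ := exists_move hFt (D0 : Divisor k Ft) Bad
  have hdeg : Divisor.degree D' = 0 := by
    have h1 := degree_eq_zero_of_mem_principal (K := k) (F := Ft) hprin
    rw [map_sub] at h1
    have h2 : Divisor.degree (D0 : Divisor k Ft) = 0 := D0.2
    linarith
  refine ⟨⟨D', (Divisor.mem_degZero).2 hdeg⟩, ?_, hBad⟩
  rw [pic0_mk_eq_mk_iff]
  exact hprin

variable {K F k Ft : Type*} [Field K] [Field F] [Algebra K F] [Field k] [Field Ft]
  [Algebra k Ft] {A : ValuationSubring K} {π : A →+* k}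

/-- **Fixed lifts of a finite set of classes.** -/
theorem exists_lifts_of_finite (S : RedSetup (F := F) (Ft := Ft) A π) (hF : RiemannPkg K F)
    (hFt : RiemannPkg k Ft) [Infinite k] (Bad : Finset (Place k Ft))
    (Vet : Set (Pic0 k Ft)) (hV : Vet.Finite) :
    ∃ Z : Finset (Place k Ft), Disjoint Z Bad ∧
      ∀ H : Set (SemilinearAut K F),
        (∀ Q ∈ Z, ∃ P : Place K F, S.r P = Q ∧ ∀ γ ∈ H, γ • P = P) →
        ∃ c : Pic0 k Ft → Pic0 K F, (∀ ub, redPic S hF (c ub) = ub) ∧
          ∀ ub ∈ Vet, ∀ γ ∈ H, γ • c ub = c ub := by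
  classical
  haveI := hF.principal
  haveI := hFt.principal
  have hrep := fun ub => exists_rep_avoiding hFt Bad ub
  choose Db hDb hDbBad using hrep
  refine ⟨hV.toFinset.biUnion fun ub => (Db ub : Divisor k Ft).support, ?_, fun H hlift => ?_⟩
  · rw [Finset.disjoint_left]
    intro Q hQ hQB
    rw [Finset.mem_biUnion] at hQ
    obtain ⟨ub, -, hQs⟩ := hQ
    exact (Finsupp.mem_support_iff.1 hQs) (hDbBad ub Q hQB)
  · set Z := hV.toFinset.biUnion fun ub => (Db ub : Divisor k Ft).support with hZ
    -- a section of `r`, `H`-fixed on `Z`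
    have hsec : ∀ Q : Place k Ft, ∃ P : Place K F, S.r P = Q ∧ (Q ∈ Z → ∀ γ ∈ H, γ • P = P) := by
      intro Q
      by_cases hQ : Q ∈ Z
      · obtain ⟨P, hP, hfix⟩ := hlift Q hQ
        exact ⟨P, hP, fun _ => hfix⟩
      · obtain ⟨P, hP⟩ := Fermat.Agent.Red.NormalForm.r_surjective S Q
        exact ⟨P, hP, fun h => absurd h hQ⟩
    choose lift hlr hlfix using hsec
    have hrD : ∀ D : Divisor k Ft,
        Finsupp.mapDomain S.r (Finsupp.mapDomain lift D) = D := by
      intro D
      rw [← Finsupp.mapDomain_comp]
      have : S.r ∘ lift = id := funext hlr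
      rw [this, Finsupp.mapDomain_id]
    have hdeg : ∀ ub, Finsupp.mapDomain lift (Db ub : Divisor k Ft) ∈
        Divisor.degZero (K := K) (F := F) := by
      intro ub
      rw [Divisor.mem_degZero, ← S.degree_mapDomain, hrD]
      exact (Db ub).2
    refine ⟨fun ub => Pic0.mk ⟨Finsupp.mapDomain lift (Db ub : Divisor k Ft), hdeg ub⟩,
      fun ub => ?_, fun ub hub γ hγ => ?_⟩
    · rw [redPic_mk]
      conv_rhs => rw [← hDb ub]
      rw [pic0_mk_eq_mk_iff, coe_redDegZero]
      show Finsupp.mapDomain S.r (Finsupp.mapDomain lift (Db ub : Divisor k Ft)) -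
        (Db ub : Divisor k Ft) ∈ Divisor.principal (K := k) (F := Ft)
      rw [hrD, sub_self]
      exact zero_mem _
    · rw [SemilinearAut.pic0_smul_mk]
      congr 1
      apply Subtype.ext
      rw [SemilinearAut.coe_degZeroSMulHom]
      show γ • Finsupp.mapDomain lift (Db ub : Divisor k Ft) =
        Finsupp.mapDomain lift (Db ub : Divisor k Ft)
      rw [SemilinearAut.divisor_smul_def, ← Finsupp.mapDomain_comp]
      refine Finsupp.mapDomain_congr fun Q hQ => ?_
      have hQZ : Q ∈ Z := by
        rw [hZ, Finset.mem_biUnion]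
        exact ⟨ub, hV.mem_toFinset.2 hub, hQ⟩
      exact hlfix Q hQZ γ hγ

end Fermat.Agent.FF2.Move
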