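import Mathlib
import Fermat.Agent.Val.GaloisModL
import Fermat.Agent.Red.FFLemmas

/-!
# MOONSHOT S19, block F8 (MOVE), part 2: open stabilisers on the special fibre

`F̃ = modularFunctionFieldFullC k N = k(j(q^d) : d ∣ N)`, `Aut(k)` acting coefficientwise
(`coeffAutC`).  The generators have integer coefficients, hence every element of `F̃` is fixed by
all automorphisms of `k` fixing a finite set of constants, and every PLACE of `F̃` is the unique pole
of some function:

* `exists_finset_fixing_elt` : `∀ x : F̃, ∃ E : Finset k, ∀ τ, (∀ e ∈ E, τ e = e) → τ • x = x`;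
* `exists_finset_fixing_place` : `∀ Q : Place k F̃, ∃ E : Finset k, ∀ τ, (∀ e ∈ E, τ e = e) →
  τ • Q = Q`  (this is "`Γ_n` acts trivially for `n ≫ 0`");
* `exists_finset_fixing_places` : the same for a finite set of places;
* `exists_finset_fixing_pic0` / `exists_finset_fixing_pic0_set` : the same for a class (a finite set
  of classes) of `Pic⁰`.
-/

set_option autoImplicit false
set_option linter.unusedSectionVars false
set_option linter.style.haveILetI false

namespace Fermat.Agent.FF2.Move

open AlgebraicCurve ModularCurve Fermat.Agent.Red Fermat.Agent.Val.GaloisModL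

variable (k : Type*) [Field k] (N : ℕ) [NeZero N]

/-- The generators `j(q^d)` of `F̃` are fixed by every coefficientwise endomorphism. -/
theorem coeffMap_eq_self_of_mem_divisorExpansionsC (τ : k →+* k) {y : LaurentSeries k}
    (hy : y ∈ divisorExpansionsC k N) : coeffMap τ y = y := by
  obtain ⟨d, hd, -, rfl⟩ := hy
  haveI := hd
  rw [coeffMap_qExpand, coeffMap_jqModC]

/-- A polynomial all of whose coefficients are fixed by `τ` is fixed by `MvPolynomial.map τ`. -/
theorem mvPolynomial_map_eq_self {σ : Type*} (τ : k →+* k) (p : MvPolynomial σ k)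
    (h : ∀ e ∈ p.coeffs, τ e = e) : MvPolynomial.map τ p = p := by
  classical
  ext m
  rw [MvPolynomial.coeff_map]
  by_cases hm : MvPolynomial.coeff m p = 0
  · rw [hm, map_zero]
  · exact h _ (MvPolynomial.coeff_mem_coeffs m hm)

/-- `coeffMap τ` commutes with the evaluation of polynomials at the generators. -/
theorem coeffMap_aeval_generators (τ : k →+* k)
    (p : MvPolynomial (divisorExpansionsC k N) k) (h : ∀ e ∈ p.coeffs, τ e = e) :
    coeffMap τ (MvPolynomial.aeval (R := k) (fun y : divisorExpansionsC k N =>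
        (y : LaurentSeries k)) p) =
      MvPolynomial.aeval (R := k) (fun y : divisorExpansionsC k N => (y : LaurentSeries k)) p := by
  have h1 : ((coeffMap τ : LaurentSeries k →+* LaurentSeries k).comp
      (algebraMap k (LaurentSeries k))) = (algebraMap k (LaurentSeries k)).comp τ :=
    RingHom.ext fun c => coeffMap_algebraMap τ c
  have h2 : ((coeffMap τ : LaurentSeries k →+* LaurentSeries k) ∘
      fun y : divisorExpansionsC k N => (y : LaurentSeries k)) =
      fun y : divisorExpansionsC k N => (y : LaurentSeries k) :=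
    funext fun y => coeffMap_eq_self_of_mem_divisorExpansionsC k N τ y.2
  rw [MvPolynomial.aeval_def, MvPolynomial.eval₂_comp_left, h1, h2, ← MvPolynomial.eval₂_map,
    mvPolynomial_map_eq_self k τ p h]

/-- **Every element of `F̃` is fixed by the automorphisms of `k` fixing a finite set.** -/
theorem exists_finset_fixing_elt (x : modularFunctionFieldFullC k N) :
    ∃ E : Finset k, ∀ τ : k ≃+* k, (∀ e ∈ E, τ e = e) → coeffAutC k N τ • x = x := by
  classical
  have hx : (x : LaurentSeries k) ∈ IntermediateField.adjoin k (divisorExpansionsC k N) := x.2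
  rw [IntermediateField.mem_adjoin_iff] at hx
  obtain ⟨r, s, hrs⟩ := hx
  refine ⟨r.coeffs ∪ s.coeffs, fun τ hτ => Subtype.ext ?_⟩
  rw [coe_coeffAutC_smul, hrs, map_div₀,
    coeffMap_aeval_generators k N (τ : k →+* k) r
      (fun e he => hτ e (Finset.mem_union_left _ he)),
    coeffMap_aeval_generators k N (τ : k →+* k) s
      (fun e he => hτ e (Finset.mem_union_right _ he))]

variable {k N}

/-- **Open stabilisers of places.** -/
theorem exists_finset_fixing_place [Infinite k]
    (hFt : RiemannPkg k (modularFunctionFieldFullC k N))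
    (Q : Place k (modularFunctionFieldFullC k N)) :
    ∃ E : Finset k, ∀ τ : k ≃+* k, (∀ e ∈ E, τ e = e) → coeffAutC k N τ • Q = Q := by
  classical
  haveI := hFt.principal
  obtain ⟨M₀, hM₀⟩ := exists_poles_exactly hFt {Q} ∅ (Finset.singleton_nonempty Q)
  obtain ⟨h, -, hQ, hother, -⟩ := hM₀ (M₀ + 1) (Nat.le_succ _)
  obtain ⟨E, hE⟩ := exists_finset_fixing_elt k N h
  refine ⟨E, fun τ hτ => ?_⟩
  by_contra hne
  have h1 : 0 ≤ (coeffAutC k N τ • Q).ord h := hother _ (by simpa using hne)
  have h2 : (coeffAutC k N τ • Q).ord (coeffAutC k N τ • h) = Q.ord h :=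
    SemilinearAut.ord_smul (coeffAutC k N τ) Q h
  rw [hE τ hτ, hQ Q (Finset.mem_singleton_self Q)] at h2
  push_cast at h2
  omega

/-- Open stabilisers, for finitely many places. -/
theorem exists_finset_fixing_places [Infinite k]
    (hFt : RiemannPkg k (modularFunctionFieldFullC k N))
    (Z : Finset (Place k (modularFunctionFieldFullC k N))) :
    ∃ E : Finset k, ∀ τ : k ≃+* k, (∀ e ∈ E, τ e = e) →
      ∀ Q ∈ Z, coeffAutC k N τ • Q = Q := by
  classical
  choose E hE using fun Q => exists_finset_fixing_place hFt Q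
  exact ⟨Z.biUnion E, fun τ hτ Q hQ =>
    hE Q τ fun e he => hτ e (Finset.mem_biUnion.2 ⟨Q, hQ, he⟩)⟩

/-- Open stabilisers of divisors. -/
theorem exists_finset_fixing_divisor [Infinite k]
    (hFt : RiemannPkg k (modularFunctionFieldFullC k N))
    (D : Divisor k (modularFunctionFieldFullC k N)) :
    ∃ E : Finset k, ∀ τ : k ≃+* k, (∀ e ∈ E, τ e = e) → coeffAutC k N τ • D = D := by
  classical
  obtain ⟨E, hE⟩ := exists_finset_fixing_places hFt D.support
  refine ⟨E, fun τ hτ => ?_⟩
  rw [SemilinearAut.divisor_smul_def]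
  conv_rhs => rw [← Finsupp.mapDomain_id (v := D)]
  exact Finsupp.mapDomain_congr fun Q hQ => hE τ hτ Q hQ

/-- Open stabilisers of classes of `Pic⁰`. -/
theorem exists_finset_fixing_pic0 [Infinite k]
    (hFt : RiemannPkg k (modularFunctionFieldFullC k N))
    (u : Pic0 k (modularFunctionFieldFullC k N)) :
    ∃ E : Finset k, ∀ τ : k ≃+* k, (∀ e ∈ E, τ e = e) → coeffAutC k N τ • u = u := by
  obtain ⟨D, rfl⟩ := Pic0.mk_surjective u
  obtain ⟨E, hE⟩ := exists_finset_fixing_divisor hFt (D : Divisor k (modularFunctionFieldFullC k N))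
  refine ⟨E, fun τ hτ => ?_⟩
  rw [SemilinearAut.pic0_smul_mk]
  congr 1
  exact Subtype.ext (by rw [SemilinearAut.coe_degZeroSMulHom]; exact hE τ hτ)

/-- Open stabilisers, for a finite set of classes of `Pic⁰` ("`Γ_n` acts trivially on `red(V)` for
`n ≫ 0`"). -/
theorem exists_finset_fixing_pic0_set [Infinite k]
    (hFt : RiemannPkg k (modularFunctionFieldFullC k N))
    (Vet : Set (Pic0 k (modularFunctionFieldFullC k N))) (hV : Vet.Finite) :
    ∃ E : Finset k, ∀ τ : k ≃+* k, (∀ e ∈ E, τ e = e) →
      ∀ u ∈ Vet, coeffAutC k N τ • u = u := by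
  classical
  choose E hE using fun u => exists_finset_fixing_pic0 hFt u
  exact ⟨hV.toFinset.biUnion E, fun τ hτ u hu =>
    hE u τ fun e he => hτ e (Finset.mem_biUnion.2 ⟨u, hV.mem_toFinset.2 hu, he⟩)⟩

end Fermat.Agent.FF2.Move
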