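import Mathlib
import Fermat.Agent.FF2.Move.OpenStab
import Fermat.Agent.FF2.Move.FinLift
import Fermat.Agent.FF2.G2I.Instance
import Fermat.Agent.FF2.Rat.RationalLift
import Fermat.Agent.FF2.Branch.Inst

/-!
# MOONSHOT S19, block F8 (MOVE), part 3: the instance at `X₀(N)`, `ℓ ∤ N` — levels

`A` a valuation subring of `ℚ̄` over `ℓ ∤ N`, `k` its residue field, `D_A`, `I_A` the
decomposition and inertia groups.  For a finite set `E ⊆ k`

* `levelSubgroup A E : Subgroup G_ℚ` : the `σ ∈ D_A` whose residual automorphism fixes `E`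
  pointwise (`I_A ≤ levelSubgroup A E ≤ D_A`, antitone in `E`); `levelSubgroup A E = Γ_n` when
  `𝔽_ℓ(E) = 𝔽_{ℓ^n}`.

Everything which holds "for `n ≫ 0`" is exported as `∃ E : Finset k, ∀ σ ∈ levelSubgroup A E, …`:

* `exists_level_fixing_places` : finitely many places of the special fibre;
* `exists_level_fixing_classes` : finitely many classes of `Pic⁰` of the special fibre;
* `exists_level_reductionModL_smul` : **`Γ_E` acts trivially on `red(V)`**, `V ⊆ J₀(N)` finite:
  `reductionModL (σ • v) = reductionModL v`;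
* `exists_level_lifts` : **fixed lifts** — for a finite set `Vet` of classes of the special fibre
  there are `E` and a section `c` of `reductionModL A N` with `σ • c ub = c ub` for all
  `ub ∈ Vet`, `σ ∈ levelSubgroup A E`  (moving lemma + open stabilisers + helper21's rational lift
  (B3) + helper29's finiteness of the branch locus).
-/

set_option autoImplicit false
set_option linter.unusedSectionVars false
set_option linter.style.haveILetI false

noncomputable section
namespace Fermat.Agent.FF2.Move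

open AlgebraicCurve ModularCurve IsLocalRing Fermat.Agent.Val Fermat.Agent.Red Fermat.Agent.FF2.G2
  Fermat.Agent.Val.GaloisModL Fermat.Agent.FF2.G2I Fermat.Agent.X0 Fermat.Agent.Good.CuspBound

set_option synthInstance.maxHeartbeats 400000
set_option maxHeartbeats 1000000

local notation "Qb" => AlgebraicClosure ℚ
local notation "GQ" => (AlgebraicClosure ℚ ≃ₐ[ℚ] AlgebraicClosure ℚ)

section LevelSubgroup

variable (A : ValuationSubring Qb)

/-- The **level subgroup** of a finite set `E` of residue constants: the elements of the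
decomposition group of `A` whose residual automorphism fixes `E` pointwise. -/
def levelSubgroup (E : Finset (ResidueField A)) : Subgroup GQ where
  carrier := {σ | ∃ hσ : σ ∈ A.decompositionSubgroup ℚ, ∀ e ∈ E, decompResAut A ⟨σ, hσ⟩ e = e}
  mul_mem' := by
    rintro σ τ ⟨hσ, hσE⟩ ⟨hτ, hτE⟩
    refine ⟨mul_mem hσ hτ, fun e he => ?_⟩
    have h1 : (⟨σ * τ, mul_mem hσ hτ⟩ : A.decompositionSubgroup ℚ) = ⟨σ, hσ⟩ * ⟨τ, hτ⟩ := rfl
    rw [h1, decompResAut_mul, hτE e he, hσE e he]
  one_mem' := by
    refine ⟨one_mem _, fun e _ => ?_⟩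
    have h1 : (⟨1, one_mem _⟩ : A.decompositionSubgroup ℚ) = 1 := rfl
    rw [h1, decompResAut_one]
    rfl
  inv_mem' := by
    rintro σ ⟨hσ, hσE⟩
    refine ⟨inv_mem hσ, fun e he => ?_⟩
    have h1 : (⟨σ⁻¹, inv_mem hσ⟩ : A.decompositionSubgroup ℚ) * ⟨σ, hσ⟩ = 1 :=
      Subtype.ext (inv_mul_cancel σ)
    have h2 := decompResAut_mul (⟨σ⁻¹, inv_mem hσ⟩ : A.decompositionSubgroup ℚ) ⟨σ, hσ⟩ e
    rw [h1, decompResAut_one, hσE e he] at h2
    exact h2.symm

variable {A}

theorem mem_levelSubgroup {E : Finset (ResidueField A)} {σ : GQ} :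
    σ ∈ levelSubgroup A E ↔
      ∃ hσ : σ ∈ A.decompositionSubgroup ℚ, ∀ e ∈ E, decompResAut A ⟨σ, hσ⟩ e = e := Iff.rfl

theorem levelSubgroup_le (E : Finset (ResidueField A)) :
    levelSubgroup A E ≤ A.decompositionSubgroup ℚ := fun _ h => h.1

theorem decompResAut_of_mem_levelSubgroup {E : Finset (ResidueField A)} {σ : GQ}
    (hσ : σ ∈ levelSubgroup A E) {e : ResidueField A} (he : e ∈ E) :
    decompResAut A ⟨σ, levelSubgroup_le E hσ⟩ e = e := hσ.2 e he

theorem levelSubgroup_anti {E E' : Finset (ResidueField A)} (h : E ⊆ E') :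
    levelSubgroup A E' ≤ levelSubgroup A E := fun _ hσ => ⟨hσ.1, fun e he => hσ.2 e (h he)⟩

theorem inertia_le_levelSubgroup (E : Finset (ResidueField A)) :
    A.inertiaSubgroupIn ℚ ≤ levelSubgroup A E := by
  intro σ hσ
  have hσ' := mem_decomposition_of_mem_inertiaIn hσ
  refine ⟨hσ', fun e _ => ?_⟩
  rw [decompResAut_of_mem_inertiaSubgroupIn hσ hσ']
  rfl

/-- A subgroup of the decomposition group all of whose elements fix `E` residually lies in the
level subgroup. -/
theorem le_levelSubgroup {E : Finset (ResidueField A)} {Γ : Subgroup GQ}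
    (hΓ : Γ ≤ A.decompositionSubgroup ℚ)
    (h : ∀ σ (hσ : σ ∈ Γ), ∀ e ∈ E, decompResAut A ⟨σ, hΓ hσ⟩ e = e) :
    Γ ≤ levelSubgroup A E := fun σ hσ => ⟨hΓ hσ, h σ hσ⟩

end LevelSubgroup

variable (N : ℕ) [NeZero N] {ℓ : ℕ} [hℓ : Fact ℓ.Prime] (hℓN : ¬ ℓ ∣ N)
variable (A : ValuationSubring Qb) (hA : A.LiesOverPrime ℓ)

include hℓN hA in
/-- **Open stabilisers, Galois form**: finitely many places of the special fibre are fixed by a
level subgroup. -/
theorem exists_level_fixing_places
    (Z : Finset (Place (ResidueField A) (modularFunctionFieldFullC (ResidueField A) N))) :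
    ∃ E : Finset (ResidueField A), ∀ σ (hσ : σ ∈ levelSubgroup A E), ∀ Q ∈ Z,
      coeffAutC (ResidueField A) N (decompResAut A ⟨σ, levelSubgroup_le E hσ⟩) • Q = Q := by
  haveI : IsAlgClosed (ResidueField A) := residueField_isAlgClosed A
  haveI : Infinite (ResidueField A) := IsAlgClosed.instInfinite
  obtain ⟨E, hE⟩ := exists_finset_fixing_places (riemannPkg_modL_residueField N hℓN A hA) Z
  exact ⟨E, fun σ hσ Q hQ => hE _ (fun e he => hσ.2 e he) Q hQ⟩

include hℓN hA in
/-- Finitely many classes of `Pic⁰` of the special fibre are fixed by a level subgroup. -/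
theorem exists_level_fixing_classes (Vet : Set (JZeroC (ResidueField A) N)) (hV : Vet.Finite) :
    ∃ E : Finset (ResidueField A), ∀ σ (hσ : σ ∈ levelSubgroup A E), ∀ u ∈ Vet,
      coeffPic0Hom (ResidueField A) N (decompResAut A ⟨σ, levelSubgroup_le E hσ⟩) u = u := by
  haveI : IsAlgClosed (ResidueField A) := residueField_isAlgClosed A
  haveI : Infinite (ResidueField A) := IsAlgClosed.instInfinite
  obtain ⟨E, hE⟩ :=
    exists_finset_fixing_pic0_set (riemannPkg_modL_residueField N hℓN A hA) Vet hV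
  exact ⟨E, fun σ hσ u hu => hE _ (fun e he => hσ.2 e he) u hu⟩

include hℓN hA in
/-- **`Γ_E` acts trivially on `red(V)`**: for a finite subset `V` of `J₀(N)` there is a level
subgroup all of whose elements satisfy `red (σ • v) = red v` for `v ∈ V`. -/
theorem exists_level_reductionModL_smul (V : Set (JZero N)) (hV : V.Finite) :
    ∃ E : Finset (ResidueField A), ∀ σ ∈ levelSubgroup A E, ∀ v ∈ V,
      reductionModL A N (σ • v) = reductionModL A N v := by
  obtain ⟨E, hE⟩ := exists_level_fixing_classes N hℓN A hA (reductionModL A N '' V) (hV.image _)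
  refine ⟨E, fun σ hσ v hv => ?_⟩
  rw [reductionModL_decomposition_smul N hℓN A hA (inputs N hℓN A hA) (levelSubgroup_le E hσ) v]
  exact hE σ hσ _ ⟨v, hv, rfl⟩

include hℓN hA in
/-- **Rational lifts of finitely many good places**: finitely many places of the special fibre
outside the cusps and the branch locus of `j̃` have lifts fixed by a level subgroup. -/
theorem exists_level_place_lifts
    (Z : Finset (Place (ResidueField A) (modularFunctionFieldFullC (ResidueField A) N)))
    (hZ : ∀ Q ∈ Z,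
      Q ∉ placeReductionModL (inputs N hℓN A hA) '' placesOverInfty Qb (jBar N) ∧
        ∃ a : ResidueField A, Q.ord (jC N A - algebraMap (ResidueField A) _ a) = 1) :
    ∃ E : Finset (ResidueField A), ∀ Q ∈ Z,
      ∃ P : Place Qb (modularFunctionFieldBar N), (redS N hℓN A hA).r P = Q ∧
        ∀ σ ∈ levelSubgroup A E, arithmeticGalois (modularFunctionFieldFull N) σ • P = P := by
  obtain ⟨E, hE⟩ := exists_level_fixing_places N hℓN A hA Z
  refine ⟨E, fun Q hQ => ?_⟩
  obtain ⟨hQZ, a, ha⟩ := hZ Q hQ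
  obtain ⟨-, P₀, -, -, hP₀, hfix, -, -⟩ :=
    Fermat.Agent.FF2.Rat.exists_rational_lift hℓN hA (inputs N hℓN A hA) (levelSubgroup A E)
      (levelSubgroup_le E) Q (fun σ hσ => hE σ hσ Q hQ) hQZ a ha
  exact ⟨P₀, hP₀, hfix⟩

include hℓN hA in
/-- **(F8) Fixed lifts of finitely many classes.**  For a finite set `Vet` of classes of `Pic⁰` of
the special fibre there are a level `E` and a section `c` of the reduction map all of whose values
on `Vet` are fixed by `levelSubgroup A E`. -/
theorem exists_level_lifts (Vet : Set (JZeroC (ResidueField A) N)) (hV : Vet.Finite) :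
    ∃ (E : Finset (ResidueField A)) (c : JZeroC (ResidueField A) N → JZero N),
      (∀ ub, reductionModL A N (c ub) = ub) ∧
        ∀ ub ∈ Vet, ∀ σ ∈ levelSubgroup A E, σ • c ub = c ub := by
  classical
  haveI : IsAlgClosed (ResidueField A) := residueField_isAlgClosed A
  haveI : Infinite (ResidueField A) := IsAlgClosed.instInfinite
  obtain ⟨Bad, hBad⟩ := Fermat.Agent.FF2.Branch.exists_finset_good N hℓN A hA (inputs N hℓN A hA)
  obtain ⟨Z, hZB, hZ⟩ := exists_lifts_of_finite (redS N hℓN A hA) (riemannPkg_bar N)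
    (riemannPkg_modL_residueField N hℓN A hA) Bad Vet hV
  obtain ⟨E, hE⟩ := exists_level_place_lifts N hℓN A hA Z
    (fun Q hQ => hBad Q (Finset.disjoint_left.1 hZB hQ))
  obtain ⟨c, hc, hcfix⟩ := hZ
    {γ | ∃ σ ∈ levelSubgroup A E, γ = arithmeticGalois (modularFunctionFieldFull N) σ}
    (fun Q hQ => by
      obtain ⟨P, hP, hfix⟩ := hE Q hQ
      refine ⟨P, hP, ?_⟩
      rintro γ ⟨σ, hσ, rfl⟩
      exact hfix σ hσ)
  refine ⟨E, c, fun ub => ?_, fun ub hub σ hσ => ?_⟩
  · rw [reductionModL_eq_redPic N hℓN A hA]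
    exact hc ub
  · rw [galois_smul_pic0_def]
    exact hcfix ub hub _ ⟨σ, hσ, rfl⟩

end Fermat.Agent.FF2.Move
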