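import Mathlib
import Fermat.Agent.FF2.Move.Level
import Fermat.Agent.FF2.Rat.PlaceStab

/-!
# MOONSHOT S19, block F8 (MOVE), part 4: ONE level for all blocks (the collector)

`A` a valuation subring of `ℚ̄` over `ℓ ∤ N`, `k` its residue field.  Given

* a finite set `s` of places of the special fibre (the residue centres of the charts and chords),
* a finite subset `V` of `J₀(N)` (the torsion module),
* a finite set `E₀` of residue constants (anything else the assembly wants rational),

there are ONE finite set `E ⊇ E₀` of residue constants and ONE section `c` of `reductionModL A N`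
such that every `σ ∈ levelSubgroup A E` (in particular every `σ ∈ Γ_ζ` once
`Γ_ζ ≤ levelSubgroup A E`, helper16's (LEVEL))

* fixes every `Q ∈ s` residually (`σ ∈ placeStab N A Q`, helper21's stabiliser),
* satisfies `red (σ • v) = red v` for `v ∈ V`,
* fixes the lifts `c (red v)`, `v ∈ V`.

`exists_level_collect'` is the same statement for an arbitrary subgroup `Γ ≤ levelSubgroup A E`
packaged as `∀ Γ, Γ ≤ levelSubgroup A E → …`.
-/

set_option autoImplicit false
set_option linter.unusedSectionVars false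
set_option linter.style.haveILetI false

noncomputable section
namespace Fermat.Agent.FF2.Move

open AlgebraicCurve ModularCurve IsLocalRing Fermat.Agent.Val Fermat.Agent.Red
  Fermat.Agent.Val.GaloisModL Fermat.Agent.FF2.G2I Fermat.Agent.FF2.Rat

set_option synthInstance.maxHeartbeats 400000
set_option maxHeartbeats 1000000

local notation "Qb" => AlgebraicClosure ℚ
local notation "GQ" => (AlgebraicClosure ℚ ≃ₐ[ℚ] AlgebraicClosure ℚ)

variable (N : ℕ) [NeZero N] {ℓ : ℕ} [hℓ : Fact ℓ.Prime] (hℓN : ¬ ℓ ∣ N)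
variable (A : ValuationSubring Qb) (hA : A.LiesOverPrime ℓ)

/-- An element of a level subgroup fixing the places of `s` residually lies in their
stabilisers. -/
theorem mem_placeStab_of_mem_levelSubgroup {E : Finset (ResidueField A)}
    {Q : Place (ResidueField A) (modularFunctionFieldFullC (ResidueField A) N)} {σ : GQ}
    (hσ : σ ∈ levelSubgroup A E)
    (h : coeffAutC (ResidueField A) N (decompResAut A ⟨σ, levelSubgroup_le E hσ⟩) • Q = Q) :
    σ ∈ placeStab N A Q :=
  mem_placeStab.2 ⟨levelSubgroup_le E hσ, h⟩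

include hℓN hA in
/-- **The collector: ONE level `E` and ONE family of lifts for all blocks.** -/
theorem exists_level_collect
    (s : Finset (Place (ResidueField A) (modularFunctionFieldFullC (ResidueField A) N)))
    (V : Set (JZero N)) (hV : V.Finite) (E₀ : Finset (ResidueField A)) :
    ∃ (E : Finset (ResidueField A)) (c : JZeroC (ResidueField A) N → JZero N),
      E₀ ⊆ E ∧ (∀ ub, reductionModL A N (c ub) = ub) ∧
      ∀ σ ∈ levelSubgroup A E,
        (∀ Q ∈ s, σ ∈ placeStab N A Q) ∧
        (∀ v ∈ V, reductionModL A N (σ • v) = reductionModL A N v) ∧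
        (∀ v ∈ V, σ • c (reductionModL A N v) = c (reductionModL A N v)) := by
  classical
  obtain ⟨E₁, hE₁⟩ := exists_level_fixing_places N hℓN A hA s
  obtain ⟨E₂, hE₂⟩ := exists_level_reductionModL_smul N hℓN A hA V hV
  obtain ⟨E₃, c, hc, hcfix⟩ := exists_level_lifts N hℓN A hA (reductionModL A N '' V) (hV.image _)
  refine ⟨E₀ ∪ E₁ ∪ E₂ ∪ E₃, c, ?_, hc, fun σ hσ => ⟨fun Q hQ => ?_, fun v hv => ?_,
    fun v hv => ?_⟩⟩
  · intro e he
    simp only [Finset.mem_union]
    exact Or.inl (Or.inl (Or.inl he))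
  · have h1 : σ ∈ levelSubgroup A E₁ :=
      levelSubgroup_anti (fun e he => by simp only [Finset.mem_union]; tauto) hσ
    exact mem_placeStab_of_mem_levelSubgroup N A h1 (hE₁ σ h1 Q hQ)
  · have h2 : σ ∈ levelSubgroup A E₂ :=
      levelSubgroup_anti (fun e he => by simp only [Finset.mem_union]; tauto) hσ
    exact hE₂ σ h2 v hv
  · have h3 : σ ∈ levelSubgroup A E₃ :=
      levelSubgroup_anti (fun e he => by simp only [Finset.mem_union]; tauto) hσ
    exact hcfix _ ⟨v, hv, rfl⟩ σ h3

include hℓN hA in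
/-- The collector, for an arbitrary subgroup `Γ` below the level (e.g. `Γ_ζ`), with the residual
fixedness of the places of `s` and of the constants `E₀` in the `⟨σ, hσ⟩`-dialect. -/
theorem exists_level_collect'
    (s : Finset (Place (ResidueField A) (modularFunctionFieldFullC (ResidueField A) N)))
    (V : Set (JZero N)) (hV : V.Finite) (E₀ : Finset (ResidueField A)) :
    ∃ (E : Finset (ResidueField A)) (c : JZeroC (ResidueField A) N → JZero N),
      (∀ ub, reductionModL A N (c ub) = ub) ∧
      ∀ Γ : Subgroup GQ, Γ ≤ levelSubgroup A E →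
        ∃ hΓ : Γ ≤ A.decompositionSubgroup ℚ,
          (∀ σ (hσ : σ ∈ Γ), ∀ e ∈ E₀, decompResAut A ⟨σ, hΓ hσ⟩ e = e) ∧
          (∀ σ (hσ : σ ∈ Γ), ∀ Q ∈ s,
            coeffAutC (ResidueField A) N (decompResAut A ⟨σ, hΓ hσ⟩) • Q = Q) ∧
          (∀ σ ∈ Γ, ∀ Q ∈ s, σ ∈ placeStab N A Q) ∧
          (∀ σ ∈ Γ, ∀ v ∈ V, reductionModL A N (σ • v) = reductionModL A N v) ∧
          (∀ σ ∈ Γ, ∀ v ∈ V, σ • c (reductionModL A N v) = c (reductionModL A N v)) := by
  obtain ⟨E, c, hE₀, hc, h⟩ := exists_level_collect N hℓN A hA s V hV E₀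
  refine ⟨E, c, hc, fun Γ hΓE => ⟨hΓE.trans (levelSubgroup_le E), fun σ hσ e he => ?_,
    fun σ hσ Q hQ => ?_, fun σ hσ => (h σ (hΓE hσ)).1, fun σ hσ => (h σ (hΓE hσ)).2.1,
    fun σ hσ => (h σ (hΓE hσ)).2.2⟩⟩
  · exact (hΓE hσ).2 e (hE₀ he)
  · obtain ⟨_, hQfix⟩ := mem_placeStab.1 ((h σ (hΓE hσ)).1 Q hQ)
    exact hQfix

end Fermat.Agent.FF2.Move
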